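/-
Programme ORD (S33), chapter CHAINMODEL (O5), helper2: **the torus has no `p`-torsion** — the pure
algebra behind property (i) (`I_P` acts trivially on `J[p^m] / (J[p^m] ∩ kerRed)`).

Setting: a finite graph `(Comp, Edge, src, tgt)` (the dual graph of a semistable special fibre), a
function field `Ft c / k` for every component `c` (`LHyp k (Ft c)`), and for every edge `e` the two
branches `Qs e : Place k (Ft (src e))`, `Qt e : Place k (Ft (tgt e))` of the node.

* `NodalPrincipal src tgt H Qs Qt Et` : the tuple of divisors `Et c` is the divisor of a rational function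
  on the nodal curve: `Et c = div (h c)` with the values of `h` on the two branches of every node equal.
* `exists_coboundary_of_pow` (C1): over a perfect field `k` of characteristic `p`, a 1-cochain `t` on the
  graph whose `p^m`-th power is a coboundary is a coboundary
  (`T(k) = (k^×)^Edge / (k^×)^Comp` has no `p`-torsion).
* `nodalPrincipal_of_pow_smul` (C2): if every `Et c` is principal on its own component, the support of
  `Et` avoids the branches and `p^m • Et` is nodal-principal, then `Et` is nodal-principal.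
-/
import Mathlib
import Fermat.Agent.RR.LSpace
import Fermat.Agent.MW.EMB.Value6

set_option autoImplicit false
set_option linter.unusedSectionVars false
set_option linter.style.longLine false

namespace Fermat.Agent.ORD.CHAINMODEL.Torus2

open AlgebraicCurve Fermat.Agent.X0.FF Fermat.Agent.RR.LSpace Fermat.Agent.MW.EMB.Value6

noncomputable section

/-! ### C1: the torus of the graph has no `p`-torsion -/

section Torus

variable {k : Type*} [Field k] {p : ℕ} [Fact p.Prime] [CharP k p] [PerfectRing k p]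

/-- `x ^ p ^ m` is injective on a reduced ring of characteristic `p`. -/
theorem pow_pPow_injective (m : ℕ) : Function.Injective fun x : k => x ^ p ^ m := by
  intro x y hxy
  have h := iterateFrobenius_inj k p m
  apply h
  simpa [iterateFrobenius_def] using hxy

/-- every element of a perfect field of characteristic `p` is a `p^m`-th power. -/
theorem exists_pow_pPow_eq (m : ℕ) (a : k) : ∃ b : k, b ^ p ^ m = a := by
  obtain ⟨b, hb⟩ := (iterateFrobeniusEquiv k p m).surjective a
  refine ⟨b, ?_⟩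
  rw [← hb, coe_iterateFrobeniusEquiv, iterateFrobenius_def]

/-- **(C1)** A 1-cochain whose `p^m`-th power is a coboundary is a coboundary. -/
theorem exists_coboundary_of_pow {Comp Edge : Type*} (src tgt : Edge → Comp) (t : Edge → k)
    (d : Comp → k) (m : ℕ) (hd : ∀ c, d c ≠ 0)
    (h : ∀ e, t e ^ p ^ m * d (tgt e) = d (src e)) :
    ∃ d' : Comp → k, (∀ c, d' c ≠ 0) ∧ ∀ e, t e * d' (tgt e) = d' (src e) := by
  choose d' hd' using fun c => exists_pow_pPow_eq (p := p) m (d c)
  refine ⟨d', fun c hc => hd c ?_, fun e => ?_⟩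
  · rw [← hd' c, hc, zero_pow (pow_ne_zero m (Fact.out : p.Prime).ne_zero)]
  · apply pow_pPow_injective (p := p) m
    show (t e * d' (tgt e)) ^ p ^ m = d' (src e) ^ p ^ m
    rw [mul_pow, hd', hd', h e]

end Torus

/-! ### nodal principality -/

section Nodal

variable {k : Type*} [Field k] {Comp Edge : Type*} (src tgt : Edge → Comp)
  {Ft : Comp → Type*} [∀ c, Field (Ft c)] [∀ c, Algebra k (Ft c)] (H : ∀ c, LHyp k (Ft c))
  (Qs : ∀ e, Place k (Ft (src e))) (Qt : ∀ e, Place k (Ft (tgt e)))

/-- The tuple of divisors `Et` is the divisor of a rational function on the nodal curve. -/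
def NodalPrincipal (Et : ∀ c, Divisor k (Ft c)) : Prop :=
  ∃ h : ∀ c, Ft c, (∀ c, h c ≠ 0 ∧ ∀ Q : Place k (Ft c), Et c Q = Q.ord (h c)) ∧
    ∀ e, valF (H (src e)) (Qs e) (h (src e)) = valF (H (tgt e)) (Qt e) (h (tgt e))

variable {src tgt H Qs Qt}

theorem NodalPrincipal.isPrincipal {Et : ∀ c, Divisor k (Ft c)}
    (h : NodalPrincipal src tgt H Qs Qt Et) (c : Comp) : Divisor.IsPrincipal (Et c) := by
  obtain ⟨f, hf, -⟩ := h
  exact ⟨f c, (hf c).1, (hf c).2⟩

theorem nodalPrincipal_zero : NodalPrincipal src tgt H Qs Qt (fun _ => 0) := by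
  refine ⟨fun _ => 1, fun c => ⟨one_ne_zero, fun Q => ?_⟩, fun e => ?_⟩
  · rw [Place.ord_one]; rfl
  · have h1 : ∀ (c : Comp) (Q : Place k (Ft c)), valF (H c) Q (1 : Ft c) = 1 := by
      intro c Q
      have := valF_algebraMap (H c) Q (1 : k)
      rwa [map_one] at this
    rw [h1, h1]

end Nodal

/-! ### C2: `p^m`-descent of nodal principality -/

section Descent

variable {k : Type*} [Field k] {p : ℕ} [Fact p.Prime] [CharP k p] [PerfectRing k p]
  {Comp Edge : Type*} {src tgt : Edge → Comp}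
  {Ft : Comp → Type*} [∀ c, Field (Ft c)] [∀ c, Algebra k (Ft c)] {H : ∀ c, LHyp k (Ft c)}
  {Qs : ∀ e, Place k (Ft (src e))} {Qt : ∀ e, Place k (Ft (tgt e))}

/-- the value of a power. -/
theorem valF_pow' {c : Comp} (Q : Place k (Ft c)) {f : Ft c} (hf : 0 ≤ Q.ord f) (n : ℕ) :
    valF (H c) Q (f ^ n) = valF (H c) Q f ^ n :=
  valF_pow (H c) Q (ffp_mem_of_ord_nonneg Q hf) n

/-- **(C2)** If every `Et c` is principal, `Et` avoids the branches and `p^m • Et` is nodal-principal,
then `Et` is nodal-principal. -/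
theorem nodalPrincipal_of_pow_smul (Et : ∀ c, Divisor k (Ft c)) (m : ℕ)
    (hs : ∀ e, Et (src e) (Qs e) = 0) (ht : ∀ e, Et (tgt e) (Qt e) = 0)
    (hprin : ∀ c, Divisor.IsPrincipal (Et c))
    (hpm : NodalPrincipal src tgt H Qs Qt (fun c => ((p ^ m : ℕ) : ℤ) • Et c)) :
    NodalPrincipal src tgt H Qs Qt Et := by
  classical
  obtain ⟨h', hh', hmatch⟩ := hpm
  choose h hh0 hh using hprin
  -- `h c ^ p^m = d c • h' c`
  have hconst : ∀ c, ∃ dc : k, dc ≠ 0 ∧ h c ^ p ^ m = algebraMap k (Ft c) dc * h' c := by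
    intro c
    have hq0 : h c ^ p ^ m / h' c ≠ 0 := div_ne_zero (pow_ne_zero _ (hh0 c)) (hh' c).1
    have hord : ∀ Q : Place k (Ft c), Q.ord (h c ^ p ^ m / h' c) = 0 := by
      intro Q
      rw [div_eq_mul_inv, Q.ord_mul (pow_ne_zero _ (hh0 c)) (inv_ne_zero (hh' c).1), Q.ord_inv,
        ← zpow_natCast, Q.ord_zpow, ← hh c Q, ← (hh' c).2 Q]
      simp
    obtain ⟨dc, hdc⟩ := eq_algebraMap_of_forall_ord_nonneg (H c) (fun Q => (hord Q).ge)
    refine ⟨dc, fun h0 => hq0 ?_, ?_⟩
    · rw [hdc, h0, map_zero]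
    · rw [← hdc, div_mul_cancel₀ _ (hh' c).1]
  choose d hd0 hd using hconst
  -- orders at the branches
  have hos : ∀ e, (Qs e).ord (h (src e)) = 0 := fun e => by rw [← hh (src e) (Qs e), hs e]
  have hot : ∀ e, (Qt e).ord (h (tgt e)) = 0 := fun e => by rw [← hh (tgt e) (Qt e), ht e]
  have hos' : ∀ e, (Qs e).ord (h' (src e)) = 0 := fun e => by
    rw [← (hh' (src e)).2 (Qs e)]; simp [hs e]
  have hot' : ∀ e, (Qt e).ord (h' (tgt e)) = 0 := fun e => by
    rw [← (hh' (tgt e)).2 (Qt e)]; simp [ht e]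
  -- the values at the branches
  set a : Edge → k := fun e => valF (H (src e)) (Qs e) (h (src e)) with ha
  set b : Edge → k := fun e => valF (H (tgt e)) (Qt e) (h (tgt e)) with hb
  have ha0 : ∀ e, a e ≠ 0 := fun e =>
    valF_ne_zero_of_ord_eq_zero (H (src e)) (Qs e) (hh0 (src e)) (hos e)
  have hb0 : ∀ e, b e ≠ 0 := fun e =>
    valF_ne_zero_of_ord_eq_zero (H (tgt e)) (Qt e) (hh0 (tgt e)) (hot e)
  have ha' : ∀ e, a e ^ p ^ m = d (src e) * valF (H (src e)) (Qs e) (h' (src e)) := by
    intro e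
    rw [ha, ← valF_pow' (H := H) (Qs e) (hos e).ge, hd (src e),
      valF_mul (H (src e)) (Qs e)
        (ffp_mem_of_ord_nonneg _ (by rw [ffp_ord_algebraMap]))
        (ffp_mem_of_ord_nonneg _ (hos' e).ge), valF_algebraMap]
  have hb' : ∀ e, b e ^ p ^ m = d (tgt e) * valF (H (tgt e)) (Qt e) (h' (tgt e)) := by
    intro e
    rw [hb, ← valF_pow' (H := H) (Qt e) (hot e).ge, hd (tgt e),
      valF_mul (H (tgt e)) (Qt e)
        (ffp_mem_of_ord_nonneg _ (by rw [ffp_ord_algebraMap]))
        (ffp_mem_of_ord_nonneg _ (hot' e).ge), valF_algebraMap]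
  have hv0 : ∀ e, valF (H (tgt e)) (Qt e) (h' (tgt e)) ≠ 0 := fun e =>
    valF_ne_zero_of_ord_eq_zero (H (tgt e)) (Qt e) (hh' (tgt e)).1 (hot' e)
  -- the cochain `t = a / b` has `t ^ p^m = d src / d tgt`
  obtain ⟨d', hd'0, hd'⟩ := exists_coboundary_of_pow (p := p) src tgt (fun e => a e / b e) d m hd0
    (fun e => by
      rw [div_pow, ha', hb', hmatch e]
      field_simp [hd0 (tgt e), hv0 e])
  -- the corrected functions
  refine ⟨fun c => algebraMap k (Ft c) (d' c)⁻¹ * h c, fun c => ⟨?_, fun Q => ?_⟩, fun e => ?_⟩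
  · exact mul_ne_zero ((map_ne_zero _).mpr (inv_ne_zero (hd'0 c))) (hh0 c)
  · rw [Q.ord_mul ((map_ne_zero _).mpr (inv_ne_zero (hd'0 c))) (hh0 c), ffp_ord_algebraMap, zero_add,
      hh c Q]
  · rw [valF_mul (H (src e)) (Qs e) (ffp_mem_of_ord_nonneg _ (by rw [ffp_ord_algebraMap]))
        (ffp_mem_of_ord_nonneg _ (hos e).ge), valF_algebraMap,
      valF_mul (H (tgt e)) (Qt e) (ffp_mem_of_ord_nonneg _ (by rw [ffp_ord_algebraMap]))
        (ffp_mem_of_ord_nonneg _ (hot e).ge), valF_algebraMap]
    show (d' (src e))⁻¹ * a e = (d' (tgt e))⁻¹ * b e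
    have h1 := hd' e
    have h2 : a e * d' (tgt e) = d' (src e) * b e := by
      have : a e / b e * d' (tgt e) = d' (src e) := h1
      field_simp [hb0 e] at this
      linear_combination this
    field_simp [hd'0 (src e), hd'0 (tgt e)]
    linear_combination h2

end Descent

end

end Fermat.Agent.ORD.CHAINMODEL.Torus2
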